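import Mathlib

/-!
# S18 / (B3): roots of polynomials over a valuation ring and their reductions

`A` a valuation ring whose fraction field `L` is algebraically closed, `π : A → k` the reduction
to the residue field (any ring hom to a field killing exactly the non-units).

* `exists_factorisation` : every `d ∈ A[X]` with `d mod 𝔪 ≠ 0` factors as
  `d = u * ∏_{a ∈ s} (X - a) * ∏_{β ∈ t} (1 - β X)` with `u` a unit and all `β ∈ 𝔪`;
* `roots_map_residue`    : `(d mod 𝔪).roots = d.roots.map π` (as multisets);
* `rootMultiplicity_map_residue` : (B3) of `notes/S18_T_design.md`: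
  `mult_ā (d mod 𝔪) = ∑_{a₀ ∈ A, π a₀ = ā} mult_{a₀} d`.
-/

set_option autoImplicit false

namespace Fermat.Agent.S18.DISC6322

open Polynomial

section

variable {A : Type*} [CommRing A] [IsDomain A] [ValuationRing A]
  {L : Type*} [Field L] [Algebra A L] [IsFractionRing A L]

/-- A product of linear factors over `L` is a constant times a product of factors `X - a`
(`a ∈ A`) and `1 - β X` (`β ∈ A` a non-unit). -/
theorem exists_split_factors (R : Multiset L) :
    ∃ (c : L) (s t : Multiset A), c ≠ 0 ∧ (∀ β ∈ t, ¬ IsUnit β) ∧
      (R.map fun α => X - C α).prod =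
        C c * (((s.map fun a => X - C a).prod * (t.map fun β => 1 - C β * X).prod).map
          (algebraMap A L)) := by
  induction R using Multiset.induction with
  | empty =>
    exact ⟨1, 0, 0, one_ne_zero, fun β hβ => absurd hβ (Multiset.notMem_zero β), by simp⟩
  | cons α R ih =>
    obtain ⟨c₀, s₀, t₀, hc, ht, hprod⟩ := ih
    rw [Polynomial.map_mul] at hprod
    rw [Multiset.map_cons, Multiset.prod_cons, hprod]
    set S' : L[X] := Polynomial.map (algebraMap A L) (Multiset.map (fun a => X - C a) s₀).prod
    set T' : L[X] :=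
      Polynomial.map (algebraMap A L) (Multiset.map (fun β => 1 - C β * X) t₀).prod
    have key : ∀ a : A, algebraMap A L a = α →
        ∃ (c : L) (s t : Multiset A), c ≠ 0 ∧ (∀ β ∈ t, ¬ IsUnit β) ∧
          (X - C α) * (C c₀ * (S' * T')) =
            C c * (((s.map fun a => X - C a).prod * (t.map fun β => 1 - C β * X).prod).map
              (algebraMap A L)) := by
      intro a ha
      refine ⟨c₀, a ::ₘ s₀, t₀, hc, ht, ?_⟩
      rw [Multiset.map_cons, Multiset.prod_cons, Polynomial.map_mul, Polynomial.map_mul,
        Polynomial.map_sub, map_X, map_C, ha]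
      ring
    rcases ValuationRing.isInteger_or_isInteger A α with ⟨a, ha⟩ | ⟨β, hβ⟩
    · exact key a ha
    · by_cases hα : ∃ a : A, algebraMap A L a = α
      · obtain ⟨a, ha⟩ := hα
        exact key a ha
      · have hα0 : α ≠ 0 := by
          rintro rfl
          exact hα ⟨0, map_zero _⟩
        have hβu : ¬ IsUnit β := by
          intro hu
          obtain ⟨γ, hγ⟩ := hu.exists_right_inv
          apply hα
          refine ⟨γ, ?_⟩
          have h1 : algebraMap A L β * algebraMap A L γ = 1 := by rw [← map_mul, hγ, map_one]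
          rw [hβ] at h1
          have h2 := eq_inv_of_mul_eq_one_right h1
          rwa [inv_inv] at h2
        refine ⟨-α * c₀, s₀, β ::ₘ t₀, mul_ne_zero (neg_ne_zero.2 hα0) hc, ?_, ?_⟩
        · intro β' hβ'
          rcases Multiset.mem_cons.1 hβ' with rfl | hβ'
          · exact hβu
          · exact ht β' hβ'
        · rw [Multiset.map_cons, Multiset.prod_cons, Polynomial.map_mul, Polynomial.map_mul,
            Polynomial.map_sub, Polynomial.map_mul, map_X, map_C, Polynomial.map_one, hβ, C_mul,
            C_neg]
          have h2 : C α * C α⁻¹ = (1 : L[X]) := by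
            rw [← C_mul, mul_inv_cancel₀ hα0, C_1]
          linear_combination (-(C c₀ * S' * T' * X)) * h2

variable [IsAlgClosed L] {k : Type*} [Field k] (π : A →+* k)

include L in
/-- Factorisation of a polynomial over `A` with nonzero reduction. -/
theorem exists_factorisation (hπ : ∀ a : A, π a = 0 ↔ ¬ IsUnit a) (d : A[X])
    (hd : d.map π ≠ 0) :
    ∃ (u : A) (s t : Multiset A), IsUnit u ∧ (∀ β ∈ t, ¬ IsUnit β) ∧
      d = C u * ((s.map fun a => X - C a).prod * (t.map fun β => 1 - C β * X).prod) := by
  classical
  have hinj : Function.Injective (algebraMap A L) := IsFractionRing.injective A L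
  have hd0 : d ≠ 0 := by
    rintro rfl
    exact hd (Polynomial.map_zero _)
  have hdL : d.map (algebraMap A L) ≠ 0 := by
    rwa [Ne, Polynomial.map_eq_zero_iff hinj]
  obtain ⟨c, s, t, hc, ht, hprod⟩ :=
    exists_split_factors (A := A) (d.map (algebraMap A L)).roots
  have hsplit := (IsAlgClosed.splits (d.map (algebraMap A L))).eq_prod_roots
  rw [hprod, ← mul_assoc, ← C_mul] at hsplit
  set G : A[X] := (s.map fun a => X - C a).prod * (t.map fun β => 1 - C β * X).prod with hG
  set c₁ : L := (d.map (algebraMap A L)).leadingCoeff * c with hc₁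
  have hc₁0 : c₁ ≠ 0 := mul_ne_zero (leadingCoeff_ne_zero.2 hdL) hc
  -- the reduction of `G`
  have hGπ : G.map π = (s.map fun a => X - C (π a)).prod := by
    rw [hG, Polynomial.map_mul, Polynomial.map_multiset_prod, Polynomial.map_multiset_prod,
      Multiset.map_map, Multiset.map_map]
    have h1 : (t.map ((Polynomial.map π) ∘ fun β => 1 - C β * X)) = t.map fun _ => (1 : k[X]) := by
      refine Multiset.map_congr rfl fun β hβ => ?_
      simp only [Function.comp_apply, Polynomial.map_sub, Polynomial.map_one, Polynomial.map_mul,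
        map_C, map_X]
      rw [(hπ β).2 (ht β hβ), C_0, zero_mul, sub_zero]
    rw [h1, Multiset.map_const', Multiset.prod_replicate, one_pow, mul_one]
    congr 1
    refine Multiset.map_congr rfl fun a _ => ?_
    simp
  have hGπ0 : G.map π ≠ 0 := by
    rw [hGπ]
    exact (monic_multiset_prod_of_monic _ _ fun a _ => monic_X_sub_C (π a)).ne_zero
  -- `c₁` is an integer
  obtain ⟨u, hu⟩ : ∃ u : A, algebraMap A L u = c₁ := by
    rcases ValuationRing.isInteger_or_isInteger A c₁ with ⟨u, hu⟩ | ⟨w, hw⟩
    · exact ⟨u, hu⟩
    · have h2 : G = C w * d := by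
        apply Polynomial.map_injective _ hinj
        have h4 : (C w * d).map (algebraMap A L) = C c₁⁻¹ * d.map (algebraMap A L) := by
          rw [Polynomial.map_mul, map_C, hw]
        rw [h4, hsplit, ← mul_assoc, ← C_mul, inv_mul_cancel₀ hc₁0, C_1, one_mul]
      have hwu : IsUnit w := by
        by_contra hwn
        apply hGπ0
        rw [h2, Polynomial.map_mul, map_C, (hπ w).2 hwn, C_0, zero_mul]
      obtain ⟨w', hw'⟩ := hwu.exists_right_inv
      refine ⟨w', ?_⟩
      have h3 : algebraMap A L w * algebraMap A L w' = 1 := by rw [← map_mul, hw', map_one]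
      rw [hw] at h3
      have := eq_inv_of_mul_eq_one_right h3
      rw [inv_inv] at this
      exact this
  have hdG : d = C u * G := by
    apply Polynomial.map_injective _ hinj
    have h5 : (C u * G).map (algebraMap A L) = C c₁ * G.map (algebraMap A L) := by
      rw [Polynomial.map_mul, map_C, hu]
    rw [h5]
    exact hsplit
  have huu : IsUnit u := by
    by_contra hun
    apply hd
    rw [hdG, Polynomial.map_mul, map_C, (hπ u).2 hun, C_0, zero_mul]
  exact ⟨u, s, t, huu, ht, hdG⟩

include L in
/-- The roots of the reduction are the reductions of the roots (with multiplicities). -/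
theorem roots_map_residue (hπ : ∀ a : A, π a = 0 ↔ ¬ IsUnit a) (d : A[X])
    (hd : d.map π ≠ 0) : (d.map π).roots = d.roots.map π := by
  classical
  obtain ⟨u, s, t, hu, ht, hdG⟩ := exists_factorisation (L := L) π hπ d hd
  have hu0 : u ≠ 0 := hu.ne_zero
  have hπu : π u ≠ 0 := fun h0 => (hπ u).1 h0 hu
  have hd0 : d ≠ 0 := by
    rintro rfl
    exact hd (Polynomial.map_zero _)
  -- the reduction
  have h1 : d.map π = C (π u) * (s.map fun a => X - C (π a)).prod := by
    rw [hdG, Polynomial.map_mul, map_C, Polynomial.map_mul, Polynomial.map_multiset_prod,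
      Polynomial.map_multiset_prod, Multiset.map_map, Multiset.map_map]
    have h2 : (t.map ((Polynomial.map π) ∘ fun β => 1 - C β * X)) = t.map fun _ => (1 : k[X]) := by
      refine Multiset.map_congr rfl fun β hβ => ?_
      simp only [Function.comp_apply, Polynomial.map_sub, Polynomial.map_one, Polynomial.map_mul,
        map_C, map_X]
      rw [(hπ β).2 (ht β hβ), C_0, zero_mul, sub_zero]
    rw [h2, Multiset.map_const', Multiset.prod_replicate, one_pow, mul_one]
    congr 2
    refine Multiset.map_congr rfl fun a _ => ?_
    simp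
  have h3 : (d.map π).roots = s.map π := by
    rw [h1, roots_C_mul _ hπu]
    have h4 : (s.map fun a => X - C (π a)) = (s.map π).map fun b => X - C b := by
      rw [Multiset.map_map]
      rfl
    rw [h4, roots_multiset_prod_X_sub_C]
  -- the roots of `d`
  have h5 : ((t.map fun β => 1 - C β * X).prod).roots = 0 := by
    refine Multiset.eq_zero_of_forall_notMem fun a0 ha0 => ?_
    have h6 := (mem_roots'.1 ha0).2
    rw [IsRoot.def, eval_multiset_prod, Multiset.map_map, Multiset.prod_eq_zero_iff] at h6
    obtain ⟨β, hβ, hβ0⟩ := Multiset.mem_map.1 h6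
    simp only [Function.comp_apply, eval_sub, eval_one, eval_mul, eval_C, eval_X] at hβ0
    exact ht β hβ (IsUnit.of_mul_eq_one a0 (sub_eq_zero.1 hβ0).symm)
  have h7 : d.roots = s := by
    have hne : (s.map fun a => X - C a).prod * (t.map fun β => 1 - C β * X).prod ≠ 0 := by
      intro h0
      rw [h0, mul_zero] at hdG
      exact hd0 hdG
    rw [hdG, roots_C_mul _ hu0, roots_mul hne, roots_multiset_prod_X_sub_C, h5, add_zero]
  rw [h3, h7]

include L in
/-- **(B3).** The multiplicity of `ā` as a root of the reduction is the total multiplicity of the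
roots `a₀ ∈ A` of `d` with residue `ā`. -/
theorem rootMultiplicity_map_residue [DecidableEq A] [DecidableEq k]
    (hπ : ∀ a : A, π a = 0 ↔ ¬ IsUnit a) (d : A[X])
    (hd : d.map π ≠ 0) (abar : k) :
    rootMultiplicity abar (d.map π) =
      ∑ a₀ ∈ d.roots.toFinset.filter (fun a₀ => π a₀ = abar), rootMultiplicity a₀ d := by
  rw [← count_roots, roots_map_residue (L := L) π hπ d hd, Multiset.count_map,
    ← Multiset.countP_eq_card_filter]
  have h1 : Multiset.countP (fun a => abar = π a) d.roots =
      ∑ a₀ ∈ d.roots.toFinset, if abar = π a₀ then d.roots.count a₀ else 0 := by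
    rw [Multiset.countP_eq_card_filter, ← Multiset.toFinset_sum_count_eq (d.roots.filter _)]
    rw [Finset.sum_subset (Multiset.toFinset_subset.2 (Multiset.filter_subset _ _))]
    · refine Finset.sum_congr rfl fun a _ => ?_
      rw [Multiset.count_filter]
    · intro a _ ha
      exact Multiset.count_eq_zero.2 fun hmem => ha (Multiset.mem_toFinset.2 hmem)
  rw [h1, Finset.sum_filter]
  refine Finset.sum_congr rfl fun a _ => ?_
  rw [count_roots]
  simp only [eq_comm]

end

end Fermat.Agent.S18.DISC6322
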